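/-
P-S44/S40, block C3, items [DI] + [FP] of `S44-IFACE-C3-ASM v1` (note 2724) glued (helper78):
the output of C3-DESC (`Kum/DescInst.descent_cover`) in the vocabulary of the LANDED [FP] layer
`R2/Cover/FixedGalois` (helper48): `ft h : D.E0 ρ hρ`, `a : D.F0 ρ hρ` (the constant `β ^ p`),
`D.sigmaAlg ρ hρ ft = algebraMap F0 E0 a * h ^ p * ft` = hypothesis `hσ` of
`Asm/Core.c3_core_pair` (with `hgen := D.sigmaAlg_generates ρ hρ`).
-/
import Fermat.Agent.S40x.Kum.DescInst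
import Fermat.Agent.S40x.R2.Cover.FixedGalois

set_option autoImplicit false
set_option linter.unusedSectionVars false
set_option linter.unusedVariables false

noncomputable section

namespace Fermat.Agent.S40x.Kum.DescE0

open Fermat.Agent.S40x.R2.Cover Fermat.Agent.S40x.R2.Cover.CoverDatum
  Fermat.Agent.S40x.Kum.DescInst AlgebraicCurve HahnSeries IntermediateField ModularCurve

variable {L : Type*} [Field L] {F : IntermediateField L (LaurentSeries L)} {p : ℕ}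
  (D : CoverDatum F p)
variable {G : Type*} [Group G] (ρ : G →* RingAut L) (hρ : ∀ g, D.Stable (ρ g))

/-- a `G`-fixed constant as an element of `F0 ⊆ E0` -/
def constF0 (c : L) (hc : ∀ g : G, ρ g c = c) : D.F0 ρ hρ :=
  ⟨E0.mk D ρ hρ (algebraMap L D.coverField c) (D.algebraMap_L_mem_fixedField ρ hρ hc),
    D.const_mem_F0 ρ hρ hc⟩

theorem val_constF0 (c : L) (hc : ∀ g : G, ρ g c = c) :
    E0.val D ρ hρ ((constF0 D ρ hρ c hc : D.F0 ρ hρ) : D.E0 ρ hρ) = algebraMap L D.coverField c :=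
  rfl

theorem constF0_ne_zero {c : L} (hc : ∀ g : G, ρ g c = c) (hc0 : c ≠ 0) :
    constF0 D ρ hρ c hc ≠ 0 := by
  intro h0
  have h1 : E0.val D ρ hρ ((constF0 D ρ hρ c hc : D.F0 ρ hρ) : D.E0 ρ hρ) = 0 := by
    rw [h0]
    exact map_zero _
  rw [val_constF0, map_eq_zero] at h1
  exact hc0 h1

/-- **[DI] in the [FP] vocabulary.**  Same hypotheses as `descent_cover`.  Output: `ft h : E0`,
`a : F0`, `β : L`, `g : F(z)`, all nonzero, `ft = f g ^ p`, `a = β ^ p` (a constant),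
`sigmaAlg ft = a h ^ p ft`, `β ^ p` fixed by `G`, and `τ β * ζ ^ j = β` for every witness
`(j, k, c)` of `τ`. -/
theorem descent_E0 {f : F} (hf0 : f ≠ 0) (hfn : Normalized (f : LaurentSeries L))
    (G' : Subgroup G) [G'.FiniteIndex]
    (hG' : ∀ γ ∈ G', coeffMap ((ρ γ : L ≃+* L) : L →+* L) (f : LaurentSeries L) = f)
    (hii : ∀ τ : G, ∃ (j : ℕ) (k : F) (c : L), k ≠ 0 ∧ c ≠ 0 ∧
      coeffMap ((ρ τ : L ≃+* L) : L →+* L) (f : LaurentSeries L) =
        (HahnSeries.C c : LaurentSeries L) * (f : LaurentSeries L) * (D.f0 : LaurentSeries L) ^ j * (k : LaurentSeries L) ^ p) :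
    ∃ (ft h : D.E0 ρ hρ) (a : D.F0 ρ hρ) (β : L) (g : D.coverField),
      ft ≠ 0 ∧ h ≠ 0 ∧ a ≠ 0 ∧ β ≠ 0 ∧ g ≠ 0 ∧
      E0.val D ρ hρ ft = algebraMap F D.coverField f * g ^ p ∧
      E0.val D ρ hρ (a : D.E0 ρ hρ) = algebraMap L D.coverField (β ^ p) ∧
      D.sigmaAlg ρ hρ ft = algebraMap (D.F0 ρ hρ) (D.E0 ρ hρ) a * h ^ p * ft ∧
      (∀ τ : G, ρ τ (β ^ p) = β ^ p) ∧
      ∀ (τ : G) (j : ℕ) (k : F) (c : L), k ≠ 0 → c ≠ 0 →
        coeffMap ((ρ τ : L ≃+* L) : L →+* L) (f : LaurentSeries L) =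
          (HahnSeries.C c : LaurentSeries L) * (f : LaurentSeries L) * (D.f0 : LaurentSeries L) ^ j * (k : LaurentSeries L) ^ p →
        ρ τ β * D.ζ ^ j = β := by
  obtain ⟨g, h, β, hg0, hh0, hβ0, hft, hh, hβp, hσ, hkum⟩ :=
    descent_cover D ρ hρ hf0 hfn G' hG' hii
  have hft0 : algebraMap F D.coverField f * g ^ p ≠ 0 :=
    mul_ne_zero (by rw [Ne, map_eq_zero]; exact hf0) (pow_ne_zero p hg0)
  refine ⟨E0.mk D ρ hρ _ ((D.mem_fixedField_iff ρ hρ).mpr hft),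
    E0.mk D ρ hρ h ((D.mem_fixedField_iff ρ hρ).mpr hh),
    constF0 D ρ hρ (β ^ p) hβp, β, g, ?_, ?_, constF0_ne_zero D ρ hρ hβp (pow_ne_zero p hβ0),
    hβ0, hg0, rfl, rfl, ?_, hβp, hkum⟩
  · intro h0
    apply hft0
    have h1 := congrArg (E0.val D ρ hρ) h0
    rwa [E0.val_mk, map_zero] at h1
  · intro h0
    apply hh0
    have h1 := congrArg (E0.val D ρ hρ) h0
    rwa [E0.val_mk, map_zero] at h1
  · apply D.sigmaAlg_eq_of_sigma_eq ρ hρ
    rw [E0.val_mk, E0.val_mk, val_constF0]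
    exact hσ

end Fermat.Agent.S40x.Kum.DescE0
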