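/-
P-S44/S40, block C3, seam C3-COV -> C3-DESC (helper78): the abstract `Datum` of C3-DESC
(`R2/Desc.Datum`, helper91, note 2655) INSTANTIATED on helper48's concrete
cover `CoverDatum.coverField = F(z) ≤ L((q))` with the coefficientwise action `coverGalois ρ hρ` of
a group `G` (e.g. an inertia group), the leading `q`-coefficient, and the deck transformation
`sigma`.  Output `descent_cover`: C3-DESC for the concrete cover, in the vocabulary of
`R2/Cover/*`.
-/
import Fermat.Agent.S40x.R2.Cover.Action
import Fermat.Agent.S40x.R2.Desc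

set_option autoImplicit false
set_option linter.unusedSectionVars false
set_option linter.unusedVariables false

noncomputable section

namespace Fermat.Agent.S40x.Kum.DescInst

open Fermat.Agent.S40x.R2.Cover Fermat.Agent.S40x.R2.Desc AlgebraicCurve HahnSeries
  IntermediateField ModularCurve

variable {L : Type*} [Field L] {F : IntermediateField L (LaurentSeries L)} {p : ℕ}
  (D : CoverDatum F p)
variable {G : Type*} [Group G] (ρ : G →* RingAut L) (hρ : ∀ g, D.Stable (ρ g))

/-- the leading `q`-coefficient on the cover field, with values in the cover field -/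
def lcCover : D.coverField →*₀ D.coverField where
  toFun x := algebraMap L D.coverField (x : LaurentSeries L).leadingCoeff
  map_zero' := by
    show algebraMap L D.coverField ((0 : LaurentSeries L)).leadingCoeff = 0
    rw [HahnSeries.leadingCoeff_zero, map_zero]
  map_one' := by
    show algebraMap L D.coverField ((1 : LaurentSeries L)).leadingCoeff = 1
    rw [HahnSeries.leadingCoeff_one, map_one]
  map_mul' x y := by
    show algebraMap L D.coverField ((x : LaurentSeries L) * (y : LaurentSeries L)).leadingCoeff = _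
    rw [HahnSeries.leadingCoeff_mul, map_mul]

theorem lcCover_apply (x : D.coverField) :
    lcCover D x = algebraMap L D.coverField (x : LaurentSeries L).leadingCoeff := rfl

theorem lcCover_eq_one_iff (x : D.coverField) :
    lcCover D x = 1 ↔ Normalized (x : LaurentSeries L) := by
  rw [lcCover_apply, Normalized]
  constructor
  · intro h
    have h1 : algebraMap L D.coverField (x : LaurentSeries L).leadingCoeff =
        algebraMap L D.coverField 1 := by rw [h, map_one]
    exact (algebraMap L D.coverField).injective h1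
  · intro h
    rw [h, map_one]

/-- the action as a homomorphism into ring automorphisms -/
def actCover : G →* (D.coverField ≃+* D.coverField) where
  toFun g := SemilinearAut.toRingAut (D.coverGalois ρ hρ g)
  map_one' := by rw [map_one]; rfl
  map_mul' g g' := by rw [map_mul]; rfl

theorem actCover_apply (g : G) (x : D.coverField) :
    actCover D ρ hρ g x = D.coverGalois ρ hρ g • x := rfl

theorem coe_actCover_apply (g : G) (x : D.coverField) :
    ((actCover D ρ hρ g x : D.coverField) : LaurentSeries L) =
      coeffMap ((ρ g : L ≃+* L) : L →+* L) (x : LaurentSeries L) := rfl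

theorem actCover_algebraMap_L (g : G) (c : L) :
    actCover D ρ hρ g (algebraMap L D.coverField c) = algebraMap L D.coverField (ρ g c) :=
  D.coverEquiv_algebraMap_L (ρ g) (hρ g) (D.stable_symm ρ hρ g) c

/-- **the abstract datum of C3-DESC on the concrete cover** -/
def toDatum : Datum D.coverField G p where
  L := (algebraMap L D.coverField).fieldRange
  F := (algebraMap F D.coverField).fieldRange
  hLF := by
    rintro _ ⟨c, rfl⟩
    exact ⟨algebraMap L F c, (IsScalarTower.algebraMap_apply L F D.coverField c).symm⟩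
  lc := lcCover D
  lc_mem := fun m => ⟨_, rfl⟩
  lc_const := by
    rintro _ ⟨c, rfl⟩
    show algebraMap L D.coverField
      ((algebraMap L D.coverField c : D.coverField) : LaurentSeries L).leadingCoeff = _
    rw [D.coe_algebraMap_L, leadingCoeff_C]
  act := actCover D ρ hρ
  act_lc := fun g m => by
    rw [lcCover_apply, lcCover_apply, actCover_algebraMap_L, coe_actCover_apply,
      leadingCoeff_coeffMap]
    rfl
  ζ := algebraMap L D.coverField D.ζ
  hζ := D.hζ.map_of_injective (algebraMap L D.coverField).injective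
  hζL := ⟨D.ζ, rfl⟩
  σ := D.sigma.toRingEquiv
  σ_F := by
    rintro _ ⟨x, rfl⟩
    exact D.sigma.commutes x
  σ_act := fun g m => (D.coverGalois_smul_sigma ρ hρ g m).symm
  z := D.gen
  f0 := algebraMap F D.coverField D.f0
  hz := D.gen_pow
  lc_z := (lcCover_eq_one_iff D D.gen).mpr D.normalized_z
  σ_z := D.sigma_gen

/-- **C3-DESC on the concrete cover.**  `f ∈ F` normalised, fixed by a normal subgroup `G'` of
finite index of `G`, with `τ f = c f f0 ^ j k ^ p` (`c ∈ L`, `k ∈ F`) for every `τ ∈ G`.  Then there
are `g h ∈ F(z)ˣ`, `β ∈ Lˣ` with `f g ^ p` and `h` fixed by `G`, `σ (f g ^ p) = β ^ p h ^ p (f g ^ p)`,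
`β ^ p` fixed by `G`, and `τ β * ζ ^ j = β` for every witness `(j, k, c)` of `τ`. -/
theorem descent_cover {f : F} (hf0 : f ≠ 0) (hfn : Normalized (f : LaurentSeries L))
    (G' : Subgroup G) [G'.FiniteIndex]
    (hG' : ∀ γ ∈ G', coeffMap ((ρ γ : L ≃+* L) : L →+* L) (f : LaurentSeries L) = f)
    (hii : ∀ τ : G, ∃ (j : ℕ) (k : F) (c : L), k ≠ 0 ∧ c ≠ 0 ∧
      coeffMap ((ρ τ : L ≃+* L) : L →+* L) (f : LaurentSeries L) =
        (HahnSeries.C c : LaurentSeries L) * (f : LaurentSeries L) * (D.f0 : LaurentSeries L) ^ j * (k : LaurentSeries L) ^ p) :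
    ∃ (g h : D.coverField) (β : L), g ≠ 0 ∧ h ≠ 0 ∧ β ≠ 0 ∧
      (∀ τ : G, D.coverGalois ρ hρ τ • (algebraMap F D.coverField f * g ^ p) =
        algebraMap F D.coverField f * g ^ p) ∧
      (∀ τ : G, D.coverGalois ρ hρ τ • h = h) ∧
      (∀ τ : G, ρ τ (β ^ p) = β ^ p) ∧
      D.sigma (algebraMap F D.coverField f * g ^ p) =
        algebraMap L D.coverField (β ^ p) * h ^ p * (algebraMap F D.coverField f * g ^ p) ∧
      ∀ (τ : G) (j : ℕ) (k : F) (c : L), k ≠ 0 → c ≠ 0 →
        coeffMap ((ρ τ : L ≃+* L) : L →+* L) (f : LaurentSeries L) =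
          (HahnSeries.C c : LaurentSeries L) * (f : LaurentSeries L) * (D.f0 : LaurentSeries L) ^ j * (k : LaurentSeries L) ^ p →
        ρ τ β * D.ζ ^ j = β := by
  classical
  set Dt := toDatum D ρ hρ with hDt
  -- translation of a witness
  have hwit : ∀ (τ : G) (j : ℕ) (k : F) (c : L),
      coeffMap ((ρ τ : L ≃+* L) : L →+* L) (f : LaurentSeries L) =
          (HahnSeries.C c : LaurentSeries L) * (f : LaurentSeries L) * (D.f0 : LaurentSeries L) ^ j * (k : LaurentSeries L) ^ p →
      Dt.act τ (algebraMap F D.coverField f) =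
        algebraMap L D.coverField c * algebraMap F D.coverField f * Dt.f0 ^ j *
          (algebraMap F D.coverField k) ^ p := by
    intro τ j k c h
    apply Subtype.ext
    show coeffMap ((ρ τ : L ≃+* L) : L →+* L) (f : LaurentSeries L) = _
    rw [h]
    simp only [MulMemClass.coe_mul, SubmonoidClass.coe_pow, D.coe_algebraMap_L]
    rfl
  have hf0' : algebraMap F D.coverField f ≠ 0 := by
    rw [Ne, map_eq_zero]
    exact hf0
  obtain ⟨g, β, h, hg0, hβ0, hh0, ⟨β0, hβ0'⟩, hft, hhfix, hβp, hσ, hkum⟩ :=
    descent Dt D.prime (f := algebraMap F D.coverField f) ⟨f, rfl⟩ hf0'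
      ((lcCover_eq_one_iff D _).mpr hfn) G'
      (fun γ hγ => Subtype.ext (hG' γ hγ))
      (fun τ => by
        obtain ⟨j, k, c, hk0, hc0, h⟩ := hii τ
        refine ⟨j, algebraMap F D.coverField k, algebraMap L D.coverField c, ⟨k, rfl⟩, ?_,
          ⟨c, rfl⟩, ?_, hwit τ j k c h⟩
        · rw [Ne, map_eq_zero]; exact hk0
        · rw [Ne, map_eq_zero]; exact hc0)
  subst hβ0'
  have hβ00 : β0 ≠ 0 := by
    rintro rfl
    exact hβ0 (map_zero _)
  have hinj := (algebraMap L D.coverField).injective
  refine ⟨g, h, β0, hg0, hh0, hβ00, hft, hhfix, ?_, ?_, ?_⟩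
  · intro τ
    apply hinj
    have := hβp τ
    rw [← map_pow] at this
    rw [← actCover_algebraMap_L D ρ hρ τ (β0 ^ p)]
    exact this
  · rw [map_pow]
    exact hσ
  · intro τ j k c hk0 hc0 hw
    apply hinj
    have := hkum τ j (algebraMap F D.coverField k) (algebraMap L D.coverField c) ⟨k, rfl⟩
      (by rw [Ne, map_eq_zero]; exact hk0) ⟨c, rfl⟩ (by rw [Ne, map_eq_zero]; exact hc0)
      (hwit τ j k c hw)
    rw [map_mul, map_pow, ← actCover_algebraMap_L D ρ hρ τ β0]
    exact this

end Fermat.Agent.S40x.Kum.DescInst
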