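/-
P-S44/S40, block C3, item [DI] of `S44-IFACE-C3-ASM v1` (note 2724) (helper78): the output of
`Kum/DescInst.descent_cover` restated INSIDE the fixed fields of `R2/Cover/Fixed` (helper48):
`ft h : FL_0 := D.fixedField ρ hρ`, `a : F_0 := fixedBase F ρ` the constant `β ^ p`, and
`σ0 ft = a * h ^ p * ft` for the restricted deck transformation `σ0 := D.sigma0 ρ hρ`.
-/
import Fermat.Agent.S40x.Kum.DescInst
import Fermat.Agent.S40x.R2.Cover.Fixed

set_option autoImplicit false
set_option linter.unusedSectionVars false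
set_option linter.unusedVariables false

noncomputable section

namespace Fermat.Agent.S40x.Kum.DescFixed

open Fermat.Agent.S40x.R2.Cover Fermat.Agent.S40x.R2.Cover.CoverDatum
  Fermat.Agent.S40x.Kum.DescInst AlgebraicCurve HahnSeries
  IntermediateField ModularCurve

variable {L : Type*} [Field L] {F : IntermediateField L (LaurentSeries L)} {p : ℕ}
  (D : CoverDatum F p)
variable {G : Type*} [Group G] (ρ : G →* RingAut L) (hρ : ∀ g, D.Stable (ρ g))

/-- a `G`-fixed constant as an element of `F_0` -/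
def constBase (c : L) (hc : ∀ g : G, ρ g c = c) : fixedBase F ρ :=
  ⟨algebraMap L F c, fun g => by
    show coeffMap _ (algebraMap L (LaurentSeries L) c) = algebraMap L (LaurentSeries L) c
    rw [LaurentSeries.algebraMap_apply, coeffMap_C]
    exact congrArg _ (hc g)⟩

theorem coe_constBase (c : L) (hc : ∀ g : G, ρ g c = c) :
    ((constBase ρ c hc : fixedBase F ρ) : F) = algebraMap L F c := rfl

theorem algebraMap_constBase (c : L) (hc : ∀ g : G, ρ g c = c) :
    algebraMap F D.coverField ((constBase ρ c hc : fixedBase F ρ) : F) =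
      algebraMap L D.coverField c :=
  (IsScalarTower.algebraMap_apply L F D.coverField c).symm

/-- **[DI] C3-DESC in the fixed fields.**  Same hypotheses as `descent_cover`.  Output:
`ft h ∈ FL_0ˣ`, `a ∈ F_0ˣ`, `β ∈ Lˣ`, `g ∈ F(z)ˣ` with `ft = f g ^ p`, `a = β ^ p` (a constant),
`σ0 ft = a h ^ p ft`, `β ^ p` fixed by `G`, and `τ β * ζ ^ j = β` for every witness `(j, k, c)`
of `τ`. -/
theorem descent_fixed {f : F} (hf0 : f ≠ 0) (hfn : Normalized (f : LaurentSeries L))
    (G' : Subgroup G) [G'.FiniteIndex]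
    (hG' : ∀ γ ∈ G', coeffMap ((ρ γ : L ≃+* L) : L →+* L) (f : LaurentSeries L) = f)
    (hii : ∀ τ : G, ∃ (j : ℕ) (k : F) (c : L), k ≠ 0 ∧ c ≠ 0 ∧
      coeffMap ((ρ τ : L ≃+* L) : L →+* L) (f : LaurentSeries L) =
        (HahnSeries.C c : LaurentSeries L) * (f : LaurentSeries L) * (D.f0 : LaurentSeries L) ^ j * (k : LaurentSeries L) ^ p) :
    ∃ (ft h : D.fixedField ρ hρ) (a : fixedBase F ρ) (β : L) (g : D.coverField),
      ft ≠ 0 ∧ h ≠ 0 ∧ a ≠ 0 ∧ β ≠ 0 ∧ g ≠ 0 ∧
      (ft : D.coverField) = algebraMap F D.coverField f * g ^ p ∧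
      (a : F) = algebraMap L F (β ^ p) ∧
      ((D.sigma0 ρ hρ ft : D.fixedField ρ hρ) : D.coverField) =
        algebraMap F D.coverField (a : F) * (h : D.coverField) ^ p * (ft : D.coverField) ∧
      (∀ τ : G, ρ τ (β ^ p) = β ^ p) ∧
      ∀ (τ : G) (j : ℕ) (k : F) (c : L), k ≠ 0 → c ≠ 0 →
        coeffMap ((ρ τ : L ≃+* L) : L →+* L) (f : LaurentSeries L) =
          (HahnSeries.C c : LaurentSeries L) * (f : LaurentSeries L) * (D.f0 : LaurentSeries L) ^ j * (k : LaurentSeries L) ^ p →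
        ρ τ β * D.ζ ^ j = β := by
  obtain ⟨g, h, β, hg0, hh0, hβ0, hft, hh, hβp, hσ, hkum⟩ :=
    descent_cover D ρ hρ hf0 hfn G' hG' hii
  have hft0 : algebraMap F D.coverField f * g ^ p ≠ 0 :=
    mul_ne_zero (by rw [Ne, map_eq_zero]; exact hf0) (pow_ne_zero p hg0)
  refine ⟨⟨_, (D.mem_fixedField_iff ρ hρ).mpr hft⟩, ⟨h, (D.mem_fixedField_iff ρ hρ).mpr hh⟩,
    constBase ρ (β ^ p) hβp, β, g, ?_, ?_, ?_, hβ0, hg0, rfl, rfl, ?_, hβp, hkum⟩
  · intro h0
    exact hft0 (congrArg Subtype.val h0)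
  · intro h0
    exact hh0 (congrArg Subtype.val h0)
  · intro h0
    have h1 : algebraMap L F (β ^ p) = 0 := congrArg Subtype.val h0
    rw [map_eq_zero] at h1
    exact pow_ne_zero p hβ0 h1
  · rw [coe_sigma0_apply, coe_constBase, ← IsScalarTower.algebraMap_apply L F D.coverField]
    exact hσ

end Fermat.Agent.S40x.Kum.DescFixed
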