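/-
P-S44/S40, block C3, SUB-ASSEMBLY of C3-ASM (helper78): the chain
[DI] (`Kum/DescInst.descent_cover`) + [FP] (`R2/Cover/FixedPart`, helper15) + [N] (`Node/OrdF0`,
helper6, at `F' := CoverDatum.fixedBase F ρ`) + [KU] (`R2/Asm/KU.dvd_ord_const_I0`, helper32) +
C3-TRANS (`R2/Transitive.ord_sub_dvd_of_generator_gal`, helper30), run ONCE in the concrete modular
setting: level `M q`, `P ∣ q` a valuation subring of `Qbar`, `I := P.inertiaSubgroupIn ℚ`,
`ρ := rhoOfSubgroup I`, `D` ANY cover datum over `F = modularFunctionFieldBar (M q)` whose Kummer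
function `D.f0` represents `l0`, and on which `I` acts stably.

OUTPUT (`exists_ft`): the descended Kummer function `ft ∈ E0 = FL_0` of `x` (`ft = u g ^ q`) with
`(Tinf)`/`(Tzero)`: for any two valuation subrings `W, W'` of `E0` over `O_∞ ∩ F0` (resp.
`O_0 ∩ F0`) with order functions `w, w'` restricting to `v_∞` (resp. `v_0`) on `F0`:
`q ∣ w' ft - w ft`.  `pair_slope_eq` = the same in the shape of `Asm/Core.c3_core_pair`.
-/
import Fermat.Agent.S40x.R2.CoverModular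
import Fermat.Agent.S40x.R2.Cover.FixedPart
import Fermat.Agent.S40x.Node.OrdF0
import Fermat.Agent.S40x.R2.Asm.Core

set_option autoImplicit false
set_option linter.unusedSectionVars false
set_option linter.unusedVariables false
set_option linter.style.haveILetI false

noncomputable section

namespace Fermat.Agent.S40x.Kum.PairModular

open AlgebraicCurve IsLocalRing ModularCurve HahnSeries
open Fermat.Agent.S19x.Geo.LatticeFixed (IsFixed IsFixedK)
open Fermat.Agent.Gateway.Hecke Fermat.Agent.Gateway.Kummer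
open Fermat.Agent.S34x.TwoVal Fermat.Agent.S34x.Inst.RedSetupInst
open Fermat.Agent.S33x.H1.FixData2Inst
open Fermat.Agent.S34x.TwoVal.ResidueInst
open Fermat.Agent.S40x.R2.Transitive (IsOrd)
open Fermat.Agent.S40x.Kummer (unitFixed)
open Fermat.Agent.S40x.R2.Cover Fermat.Agent.S40x.R2.Cover.CoverDatum
open Fermat.Agent.S40x.Node

local notation "Qbar" => AlgebraicClosure ℚ
local notation "Γℚ" => (AlgebraicClosure ℚ ≃ₐ[ℚ] AlgebraicClosure ℚ)

variable (P : ValuationSubring Qbar) {k : Type} [Field k] (π : P →+* k) [IsAlgClosed k]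
variable (M q : ℕ) [NeZero M] [Fact q.Prime] [CharP k q]
variable (hdeg : finrankAlong Qbar (heckeAlphaBar Qbar M q) = q + 1) (hq : q.Prime)
  (hqM : ¬ q ∣ M)
variable (hrk : ∀ x ∈ maximalIdeal P, ∀ c : P, c ≠ 0 → ∃ j : ℕ, c ∣ x ^ j)
  (hπ : Function.Surjective π)

/-- the inertia group of `P` acting on `Qbar` -/
abbrev rhoI : (P.inertiaSubgroupIn ℚ) →* RingAut Qbar := rhoOfSubgroup (P.inertiaSubgroupIn ℚ)

/-- `F_0` (the `I`-fixed functions of level `M q`) as a subfield of `FL Qbar (M q)` -/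
abbrev baseSub : Subfield (FL Qbar (M * q)) :=
  CoverDatum.fixedBase (modularFunctionFieldBar (M * q)) (rhoI P)

/-- the elements of `F_0` are inertia-fixed in the sense of `Node/OrdF0` -/
theorem isFixed_of_mem_baseSub (f : FL Qbar (M * q)) (hf : f ∈ baseSub P M q) :
    IsFixed (inertiaAct P (M * q)) f := by
  rintro s ⟨τ, hτ, rfl⟩
  apply Subtype.ext
  rw [coe_arithmeticGalois_smul]
  exact hf ⟨τ, hτ⟩

/-- `F_0` as a field type (helper15's synonym) -/
abbrev F0 : Type := FixedBase (modularFunctionFieldBar (M * q)) (rhoI P)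

/-- `O_∞ ∩ F_0` -/
def OinfB : ValuationSubring (F0 P M q) := OrdF0.Oinf P π M q hqM hrk hπ (baseSub P M q)

/-- `O_0 ∩ F_0` -/
def OzeroB : ValuationSubring (F0 P M q) :=
  OrdF0.Ozero P π M q hdeg hq hqM hrk hπ (baseSub P M q)

/-- `v_∞` on `F_0` -/
def vinfB : F0 P M q → ℤ := OrdF0.vinf P π M q hqM hrk hπ (baseSub P M q)

/-- `v_0` on `F_0` -/
def vzeroB : F0 P M q → ℤ := OrdF0.vzero P π M q hdeg hq hqM hrk hπ (baseSub P M q)

include hdeg hq in
theorem isOrd_vinfB : IsOrd (OinfB P π M q hqM hrk hπ) (vinfB P π M q hqM hrk hπ) :=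
  OrdF0.isOrd_vinf P π M q hdeg hq hqM hrk hπ (baseSub P M q) (isFixed_of_mem_baseSub P M q)

theorem isOrd_vzeroB :
    IsOrd (OzeroB P π M q hdeg hq hqM hrk hπ) (vzeroB P π M q hdeg hq hqM hrk hπ) :=
  OrdF0.isOrd_vzero P π M q hdeg hq hqM hrk hπ (baseSub P M q) (isFixed_of_mem_baseSub P M q)

/-- the constants of the inertia field inside `F_0` -/
def kappa : Vocab.K0 P →+* F0 P M q where
  toFun c := FixedBase.mk (algebraMap Qbar (modularFunctionFieldBar (M * q)) (c : Qbar))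
    (fun g => by
      show coeffMap _ (algebraMap Qbar (LaurentSeries Qbar) (c : Qbar)) =
        algebraMap Qbar (LaurentSeries Qbar) (c : Qbar)
      rw [LaurentSeries.algebraMap_apply, coeffMap_C]
      exact congrArg _ (c.2 g g.2))
  map_one' := Subtype.ext (map_one _)
  map_mul' x y := Subtype.ext (by
    show algebraMap Qbar (modularFunctionFieldBar (M * q)) ((x * y : Vocab.K0 P) : Qbar) = _
    rw [Subfield.coe_mul, map_mul]
    rfl)
  map_zero' := Subtype.ext (map_zero _)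
  map_add' x y := Subtype.ext (by
    show algebraMap Qbar (modularFunctionFieldBar (M * q)) ((x + y : Vocab.K0 P) : Qbar) = _
    rw [Subfield.coe_add, map_add]
    rfl)

theorem val_kappa (c : Vocab.K0 P) :
    FixedBase.val (modularFunctionFieldBar (M * q)) (rhoI P) (kappa P M q c) =
      algebraMap Qbar (modularFunctionFieldBar (M * q)) (c : Qbar) := rfl

theorem kappa_natCast_ne_zero : kappa P M q ((q : ℕ) : Vocab.K0 P) ≠ 0 := by
  have hq0 : (q : ℕ) ≠ 0 := (Fact.out : q.Prime).ne_zero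
  rw [Ne, map_eq_zero]
  intro h
  have h1 : (((q : ℕ) : Vocab.K0 P) : Qbar) = 0 := by rw [h]; rfl
  have h2 : (((q : ℕ) : Vocab.K0 P) : Qbar) = ((q : ℕ) : Qbar) := by push_cast; rfl
  rw [h2] at h1
  exact Nat.cast_ne_zero.mpr hq0 h1

include hdeg hq in
theorem vinfB_kappa_natCast :
    vinfB P π M q hqM hrk hπ (kappa P M q ((q : ℕ) : Vocab.K0 P)) = 1 :=
  OrdF0.vinf_map_natCast P π M q hdeg hq hqM hrk hπ (baseSub P M q) (kappa P M q)

theorem vzeroB_kappa_natCast :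
    vzeroB P π M q hdeg hq hqM hrk hπ (kappa P M q ((q : ℕ) : Vocab.K0 P)) = 1 :=
  OrdF0.vzero_map_natCast P π M q hdeg hq hqM hrk hπ (baseSub P M q) (kappa P M q)

include hdeg hq in
theorem vinfB_kappa_unit (c : Vocab.K0 P) (hc : (c : Qbar) ∈ unitFixed P) :
    vinfB P π M q hqM hrk hπ (kappa P M q c) = 0 :=
  OrdF0.vinf_map_unit P π M q hdeg hq hqM hrk hπ (baseSub P M q) rfl hc

theorem vzeroB_kappa_unit (c : Vocab.K0 P) (hc : (c : Qbar) ∈ unitFixed P) :
    vzeroB P π M q hdeg hq hqM hrk hπ (kappa P M q c) = 0 :=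
  OrdF0.vzero_map_unit P π M q hdeg hq hqM hrk hπ (baseSub P M q) rfl hc

/-! ### The chain -/

section Main

variable (D : CoverDatum (modularFunctionFieldBar (M * q)) q)
  (hρ : ∀ g : P.inertiaSubgroupIn ℚ, D.Stable (rhoI P g))

/-- the raw output of [DI] + [FP] + [KU] + [N]: the descended Kummer function `ft ∈ E0`, with
`σ0 ft = a h ^ q ft`, `a ∈ F0`, `q ∣ v_∞ a`, `q ∣ v_0 a`. -/
theorem exists_ft_raw (hP : P.LiesOverPrime q) {l0 x : JZero (M * q)}
    (hD0 : IsKummerRep q l0 D.f0)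
    {u : modularFunctionFieldBar (M * q)} (hu : IsKummerRep q x u)
    (hun : Normalized (u : LaurentSeries Qbar))
    (hx : ∀ σ ∈ P.inertiaSubgroupIn ℚ, ∃ j : ℕ, σ • x - x = j • l0)
    (hd : ∀ τ ∈ P.inertiaSubgroupIn ℚ,
      (∀ b : Qbar, b ^ q ∈ unitFixed P → τ b = b) → τ • x = x) :
    ∃ (ft h : D.FixedCover (rhoI P) hρ) (a : F0 P M q) (g : D.coverField),
      ft ≠ 0 ∧ h ≠ 0 ∧ a ≠ 0 ∧ g ≠ 0 ∧
      D.fixedVal (rhoI P) hρ ft =
        algebraMap (modularFunctionFieldBar (M * q)) D.coverField u * g ^ q ∧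
      D.sigma0Alg (rhoI P) hρ ft =
        algebraMap (F0 P M q) (D.FixedCover (rhoI P) hρ) a * h ^ q * ft ∧
      (q : ℤ) ∣ vinfB P π M q hqM hrk hπ a ∧
      (q : ℤ) ∣ vzeroB P π M q hdeg hq hqM hrk hπ a := by
  classical
  obtain ⟨G', hG'fin, hG'⟩ :=
    Fermat.Agent.S40x.R2.CoverModular.exists_finiteIndex_fixing (P.inertiaSubgroupIn ℚ) u
  haveI := hG'fin
  have hii : ∀ τ : P.inertiaSubgroupIn ℚ, ∃ (j : ℕ) (k : modularFunctionFieldBar (M * q))
      (c : Qbar), k ≠ 0 ∧ c ≠ 0 ∧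
      coeffMap ((rhoI P τ : Qbar ≃+* Qbar) : Qbar →+* Qbar) (u : LaurentSeries Qbar) =
        (HahnSeries.C c : LaurentSeries Qbar) * (u : LaurentSeries Qbar) *
          (D.f0 : LaurentSeries Qbar) ^ j * (k : LaurentSeries Qbar) ^ q := by
    intro τ
    obtain ⟨j, hj⟩ := hx τ τ.2
    obtain ⟨k, c, hk0, hc0, hkc⟩ :=
      Fermat.Agent.S40x.R2.CoverModular.hii_of_smul_sub hu hD0 (τ : Γℚ) hj
    exact ⟨j, k, c, hk0, hc0, hkc⟩
  obtain ⟨g, h, β, hg0, hh0, hβ0, hft, hhfix, hβp, hσ, hkum⟩ :=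
    Fermat.Agent.S40x.Kum.DescInst.descent_cover D (rhoI P) hρ (f := u) hu.ne_zero hun G' hG' hii
  -- the Kummer constant
  have hβfix : ∀ τ ∈ P.inertiaSubgroupIn ℚ, τ (β ^ q) = β ^ q := fun τ hτ => hβp ⟨τ, hτ⟩
  have hI0 : ∀ τ ∈ P.inertiaSubgroupIn ℚ,
      (∀ b : Qbar, b ^ q ∈ unitFixed P → τ b = b) → τ β = β := by
    intro τ hτ hb
    have h0 : τ • x - x = (0 : ℕ) • l0 := by rw [hd τ hτ hb, sub_self, zero_nsmul]
    obtain ⟨k, c, hk0, hc0, hkc⟩ :=
      Fermat.Agent.S40x.R2.CoverModular.hii_of_smul_sub hu hD0 τ h0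
    have := hkum ⟨τ, hτ⟩ 0 k c hk0 hc0 hkc
    rwa [pow_zero, mul_one] at this
  have hainf := Fermat.Agent.S40x.R2.Asm.KU.dvd_ord_const_I0
    (isOrd_vinfB P π M q hdeg hq hqM hrk hπ) (Vocab.K0 P) (fun _ hc => hc) (kappa P M q)
    (vinfB_kappa_natCast P π M q hdeg hq hqM hrk hπ)
    (vinfB_kappa_unit P π M q hdeg hq hqM hrk hπ) hq hP hβ0 hβfix hI0
  have hazero := Fermat.Agent.S40x.R2.Asm.KU.dvd_ord_const_I0
    (isOrd_vzeroB P π M q hdeg hq hqM hrk hπ) (Vocab.K0 P) (fun _ hc => hc) (kappa P M q)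
    (vzeroB_kappa_natCast P π M q hdeg hq hqM hrk hπ)
    (vzeroB_kappa_unit P π M q hdeg hq hqM hrk hπ) hq hP hβ0 hβfix hI0
  have hft0 : algebraMap (modularFunctionFieldBar (M * q)) D.coverField u * g ^ q ≠ 0 :=
    mul_ne_zero (by rw [Ne, map_eq_zero]; exact hu.ne_zero) (pow_ne_zero q hg0)
  refine ⟨D.fixedMk (rhoI P) hρ _ ((D.mem_fixedField_iff (rhoI P) hρ).mpr hft),
    D.fixedMk (rhoI P) hρ h ((D.mem_fixedField_iff (rhoI P) hρ).mpr hhfix),
    kappa P M q ⟨β ^ q, hβfix⟩, g, ?_, ?_, ?_, hg0, rfl, ?_, hainf, hazero⟩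
  · intro h0
    apply hft0
    have h1 := congrArg (D.fixedVal (rhoI P) hρ) h0
    rwa [fixedVal_fixedMk, map_zero] at h1
  · intro h0
    apply hh0
    have h1 := congrArg (D.fixedVal (rhoI P) hρ) h0
    rwa [fixedVal_fixedMk, map_zero] at h1
  · rw [Ne, map_eq_zero]
    intro h0
    exact pow_ne_zero q hβ0 (congrArg Subtype.val h0)
  · apply D.fixedVal_injective (rhoI P) hρ
    rw [fixedVal_sigma0Alg, map_mul, map_mul, map_pow, fixedVal_algebraMap, fixedVal_fixedMk,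
      fixedVal_fixedMk, val_kappa]
    exact hσ

/-- The conclusion of the sub-assembly: a descended Kummer function `ft = u g ^ q ∈ E0` of the
class with Kummer function `u`, with `Tinf` and `Tzero`: the order of `ft` mod `q` does not depend
on the valuation of `E0` over `O_∞ ∩ F0` (resp. over `O_0 ∩ F0`). -/
def FtSpec (u : modularFunctionFieldBar (M * q)) : Prop :=
    ∃ (ft : D.FixedCover (rhoI P) hρ) (g : D.coverField), ft ≠ 0 ∧ g ≠ 0 ∧
      D.fixedVal (rhoI P) hρ ft =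
        algebraMap (modularFunctionFieldBar (M * q)) D.coverField u * g ^ q ∧
      (∀ {W W' : ValuationSubring (D.FixedCover (rhoI P) hρ)}
        {w w' : D.FixedCover (rhoI P) hρ → ℤ},
        (∀ e : F0 P M q, algebraMap (F0 P M q) (D.FixedCover (rhoI P) hρ) e ∈ W ↔
          e ∈ OinfB P π M q hqM hrk hπ) →
        (∀ e : F0 P M q, algebraMap (F0 P M q) (D.FixedCover (rhoI P) hρ) e ∈ W' ↔
          e ∈ OinfB P π M q hqM hrk hπ) →
        IsOrd W w → IsOrd W' w' →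
        (∀ e : F0 P M q, e ≠ 0 →
          w (algebraMap (F0 P M q) (D.FixedCover (rhoI P) hρ) e) = vinfB P π M q hqM hrk hπ e) →
        (∀ e : F0 P M q, e ≠ 0 →
          w' (algebraMap (F0 P M q) (D.FixedCover (rhoI P) hρ) e) = vinfB P π M q hqM hrk hπ e) →
        (q : ℤ) ∣ w' ft - w ft) ∧
      (∀ {W W' : ValuationSubring (D.FixedCover (rhoI P) hρ)}
        {w w' : D.FixedCover (rhoI P) hρ → ℤ},
        (∀ e : F0 P M q, algebraMap (F0 P M q) (D.FixedCover (rhoI P) hρ) e ∈ W ↔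
          e ∈ OzeroB P π M q hdeg hq hqM hrk hπ) →
        (∀ e : F0 P M q, algebraMap (F0 P M q) (D.FixedCover (rhoI P) hρ) e ∈ W' ↔
          e ∈ OzeroB P π M q hdeg hq hqM hrk hπ) →
        IsOrd W w → IsOrd W' w' →
        (∀ e : F0 P M q, e ≠ 0 →
          w (algebraMap (F0 P M q) (D.FixedCover (rhoI P) hρ) e) =
            vzeroB P π M q hdeg hq hqM hrk hπ e) →
        (∀ e : F0 P M q, e ≠ 0 →
          w' (algebraMap (F0 P M q) (D.FixedCover (rhoI P) hρ) e) =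
            vzeroB P π M q hdeg hq hqM hrk hπ e) →
        (q : ℤ) ∣ w' ft - w ft)

/-- **Sub-assembly [DI] + [FP] + [N] + [KU] + TRANS.**  The descended Kummer function
`ft = u g ^ q ∈ E0` of `x`, and the independence mod `q` of its order along the valuations of `E0`
over `O_∞ ∩ F0` (`Tinf`) and over `O_0 ∩ F0` (`Tzero`). -/
theorem exists_ft (hP : P.LiesOverPrime q) {l0 x : JZero (M * q)}
    (hD0 : IsKummerRep q l0 D.f0)
    {u : modularFunctionFieldBar (M * q)} (hu : IsKummerRep q x u)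
    (hun : Normalized (u : LaurentSeries Qbar))
    (hx : ∀ σ ∈ P.inertiaSubgroupIn ℚ, ∃ j : ℕ, σ • x - x = j • l0)
    (hd : ∀ τ ∈ P.inertiaSubgroupIn ℚ,
      (∀ b : Qbar, b ^ q ∈ unitFixed P → τ b = b) → τ • x = x) :
    FtSpec P π M q hdeg hq hqM hrk hπ D hρ u := by
  obtain ⟨ft, h, a, g, hft0, hh0, ha0, hg0, hftg, hσ, hainf, hazero⟩ :=
    exists_ft_raw P π M q hdeg hq hqM hrk hπ D hρ hP hD0 hu hun hx hd
  refine ⟨ft, g, hft0, hg0, hftg, ?_, ?_⟩
  · intro W W' w w' hW hW' hw hw' hv hv'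
    refine Fermat.Agent.S40x.R2.Transitive.ord_sub_dvd_of_generator_gal hW hW' hw hw' hv hv'
      (kappa_natCast_ne_zero P M q) ?_ q hft0 (D.mem_zpowers_sigma0Alg (rhoI P) hρ) ha0 hh0 hσ
      hainf
    rw [vinfB_kappa_natCast P π M q hdeg hq hqM hrk hπ]
    exact one_ne_zero
  · intro W W' w w' hW hW' hw hw' hv hv'
    refine Fermat.Agent.S40x.R2.Transitive.ord_sub_dvd_of_generator_gal hW hW' hw hw' hv hv'
      (kappa_natCast_ne_zero P M q) ?_ q hft0 (D.mem_zpowers_sigma0Alg (rhoI P) hρ) ha0 hh0 hσ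
      hazero
    rw [vzeroB_kappa_natCast P π M q hdeg hq hqM hrk hπ]
    exact one_ne_zero

end Main

/-- the arithmetic step from `Tinf`, `Tzero` to the equality of two node slopes
(last lines of `Asm/Core.c3_core_pair`) -/
theorem zmod_sub_eq_of_dvd {a b a' b' : ℤ} (h1 : (q : ℤ) ∣ a' - a) (h2 : (q : ℤ) ∣ b' - b) :
    ((b - a : ℤ) : ZMod q) = ((b' - a' : ℤ) : ZMod q) := by
  rw [← sub_eq_zero, ← Int.cast_sub, ZMod.intCast_zmod_eq_zero_iff_dvd]
  have : b - a - (b' - a') = (a' - a) - (b' - b) := by ring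
  rw [this]
  exact dvd_sub h1 h2

/-- `exists_ft` for the Kummer cover datum of `l0` (`Cover/Modular.coverDatumOfKummer`), the
inertia group acting on `l0` through the cyclotomic character. -/
theorem exists_ft_kummer (hP : P.LiesOverPrime q) {ζ : Qbar} (hζ : IsPrimitiveRoot ζ q)
    {l0 x : JZero (M * q)} (hl0 : l0 ≠ 0) {u0 : modularFunctionFieldBar (M * q)}
    (hu0 : IsKummerRep q l0 u0) (hnorm : Normalized (u0 : LaurentSeries Qbar))
    (hI : ∀ σ ∈ P.inertiaSubgroupIn ℚ, ∃ a : ℕ, σ • l0 = a • l0 ∧ σ ζ = ζ ^ a)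
    {u : modularFunctionFieldBar (M * q)} (hu : IsKummerRep q x u)
    (hun : Normalized (u : LaurentSeries Qbar))
    (hx : ∀ σ ∈ P.inertiaSubgroupIn ℚ, ∃ j : ℕ, σ • x - x = j • l0)
    (hd : ∀ τ ∈ P.inertiaSubgroupIn ℚ,
      (∀ b : Qbar, b ^ q ∈ unitFixed P → τ b = b) → τ • x = x) :
    FtSpec P π M q hdeg hq hqM hrk hπ (coverDatumOfKummer hq hζ hl0 hu0 hnorm)
      (stable_rhoOfSubgroup hq hζ hl0 hu0 hnorm (P.inertiaSubgroupIn ℚ) hI) u :=
  exists_ft P π M q hdeg hq hqM hrk hπ (coverDatumOfKummer hq hζ hl0 hu0 hnorm)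
    (stable_rhoOfSubgroup hq hζ hl0 hu0 hnorm (P.inertiaSubgroupIn ℚ) hI) hP hu0 hu hun hx hd

end Fermat.Agent.S40x.Kum.PairModular
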