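/-
P-S44/S40, block C3, SUB-ASSEMBLY of C3-ASM, top layer (helper78): the GLOBAL BLOCK
(`Kum/PairModular.exists_ft_raw` = [DI] + [FP] + [N] + [KU]) at the `ℚ̄`-instance of `Geo/Vocab`
(`P := B`, `k := ResidueField B`, `π := residue B`, level `M₀ p`), fed with the local shape
`GeoShape` of `s44_geo'` (`Geo/ShapeFacts`, helper60), and plugged into helper41's top seam
`Asm/TopB.isDiagonal_of_nodeOut`.

`isDiagonal_of_perPlace` : for `x ∈ V`, the per-place outputs of the lower layers ([ET] + [CFE] +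
[SL] at the node places, `c3_flat` off the nodes), stated for the descended Kummer function `ft`,
give `∃ c, Vocab.IsDiagonal nodeInf nodeZero x c` = the conclusion of `Geo/FinalLeaves.LeafC3`.
-/
import Fermat.Agent.S40x.Kum.PairModular
import Fermat.Agent.S40x.Geo.ShapeFacts
import Fermat.Agent.S40x.R2.Asm.TopB

set_option autoImplicit false
set_option linter.unusedSectionVars false
set_option linter.unusedVariables false
set_option linter.style.haveILetI false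

noncomputable section

namespace Fermat.Agent.S40x.Kum.GlobalGeo

open AlgebraicCurve IsLocalRing ModularCurve HahnSeries
open Fermat.Agent.Gateway.Hecke Fermat.Agent.Gateway.Kummer Fermat.Agent.Gateway.S31Red
open Fermat.Agent.S34x.Inst
open Fermat.Agent.S33x.KummerPn
open Fermat.Agent.S40x.R2.Transitive (IsOrd)
open Fermat.Agent.S40x.Kummer (unitFixed)
open Fermat.Agent.S40x.R2.Cover Fermat.Agent.S40x.R2.Cover.CoverDatum
open Fermat.Agent.S40x.Kum.PairModular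
open Fermat.Agent.S40x.Level.G0 Fermat.Agent.S40x.Geo.ShapeFacts Fermat.Agent.S40x.Geo.Vocab
open Fermat.Agent.S40x.R2.Asm.NodeSeam

local notation "Qb" => AlgebraicClosure ℚ
local notation "Γℚ" => (AlgebraicClosure ℚ ≃ₐ[ℚ] AlgebraicClosure ℚ)

variable (M₀ p : ℕ) [NeZero M₀] [NeZero p] (hp : p.Prime) (hpM : ¬ p ∣ M₀)
  (B : ValuationSubring Qb) (hB : B.LiesOverPrime p)

/-- `O_∞ ∩ F_0` at the `ℚ̄`-instance -/
def OinfQb : ValuationSubring (F0 B M₀ p) :=
  haveI : Fact p.Prime := ⟨hp⟩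
  haveI : IsAlgClosed (ResidueField B) := FinalBase.isAlgClosed_residueField B
  haveI : CharP (ResidueField B) p := FinalBase.charP_residueField B hB
  OinfB B (residue B) M₀ p hpM (FinalBase.rank_one B hp hB) (FinalBase.residue_surjective B)

/-- `O_0 ∩ F_0` at the `ℚ̄`-instance -/
def OzeroQb : ValuationSubring (F0 B M₀ p) :=
  haveI : Fact p.Prime := ⟨hp⟩
  haveI : IsAlgClosed (ResidueField B) := FinalBase.isAlgClosed_residueField B
  haveI : CharP (ResidueField B) p := FinalBase.charP_residueField B hB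
  OzeroB B (residue B) M₀ p (hdegQb M₀ p hp hpM) hp hpM (FinalBase.rank_one B hp hB)
    (FinalBase.residue_surjective B)

/-- `v_∞` on `F_0` at the `ℚ̄`-instance -/
def vinfQb : F0 B M₀ p → ℤ :=
  haveI : Fact p.Prime := ⟨hp⟩
  haveI : IsAlgClosed (ResidueField B) := FinalBase.isAlgClosed_residueField B
  haveI : CharP (ResidueField B) p := FinalBase.charP_residueField B hB
  vinfB B (residue B) M₀ p hpM (FinalBase.rank_one B hp hB) (FinalBase.residue_surjective B)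

/-- `v_0` on `F_0` at the `ℚ̄`-instance -/
def vzeroQb : F0 B M₀ p → ℤ :=
  haveI : Fact p.Prime := ⟨hp⟩
  haveI : IsAlgClosed (ResidueField B) := FinalBase.isAlgClosed_residueField B
  haveI : CharP (ResidueField B) p := FinalBase.charP_residueField B hB
  vzeroB B (residue B) M₀ p (hdegQb M₀ p hp hpM) hp hpM (FinalBase.rank_one B hp hB)
    (FinalBase.residue_surjective B)

variable {M₀ p hp hpM B hB}
variable {V L : AddSubgroup (JTors (M₀ * p) (p ^ 1))}

/-- (2b) of `Geo/ShapeFacts` in the `JZero`-action form: the inertia group acts on the generator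
`l₀` of `L` through the cyclotomic character. -/
theorem hI_of_shape (h : GeoShape p (M₀ * p) B V L) (hp : p.Prime) {ζ : Qb}
    (hζ : IsPrimitiveRoot ζ p) {l₀ : JTors (M₀ * p) (p ^ 1)} (hl₀L : l₀ ∈ L) :
    ∀ σ ∈ B.inertiaSubgroupIn ℚ, ∃ a : ℕ,
      σ • (l₀ : JZero (M₀ * p)) = a • (l₀ : JZero (M₀ * p)) ∧ σ ζ = ζ ^ a := by
  intro σ hσ
  obtain ⟨a, ha, ha'⟩ := shape_h1 h hp hζ hl₀L σ hσ
  refine ⟨a, ?_, ha'⟩
  have := congrArg (fun y : JTors (M₀ * p) (p ^ 1) => (y : JZero (M₀ * p))) ha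
  simpa [coe_galTors_apply] using this

/-- (3) of `Geo/ShapeFacts` in the `JZero`-action form. -/
theorem hx_of_shape (h : GeoShape p (M₀ * p) B V L) {l₀ : JTors (M₀ * p) (p ^ 1)}
    (hgen : ∀ s ∈ L, ∃ j : ℕ, s = j • l₀) {x : JTors (M₀ * p) (p ^ 1)} (hxV : x ∈ V) :
    ∀ σ ∈ B.inertiaSubgroupIn ℚ, ∃ j : ℕ,
      σ • (x : JZero (M₀ * p)) - (x : JZero (M₀ * p)) = j • (l₀ : JZero (M₀ * p)) := by
  intro σ hσ
  obtain ⟨j, hj⟩ := shape_h2 h hgen x hxV σ hσ
  refine ⟨j, ?_⟩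
  have := congrArg (fun y : JTors (M₀ * p) (p ^ 1) => (y : JZero (M₀ * p))) hj
  simpa [coe_galTors_apply] using this

/-- `hd` of `s44_geo'` in the `JZero`-action form. -/
theorem hd_of_shape (h : GeoShape p (M₀ * p) B V L) {x : JTors (M₀ * p) (p ^ 1)} (hxV : x ∈ V) :
    ∀ τ ∈ B.inertiaSubgroupIn ℚ, (∀ b : Qb, b ^ p ∈ unitFixed B → τ b = b) →
      τ • (x : JZero (M₀ * p)) = (x : JZero (M₀ * p)) := by
  intro τ hτ hb
  have := congrArg (fun y : JTors (M₀ * p) (p ^ 1) => (y : JZero (M₀ * p))) (h.hd τ hτ hb x hxV)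
  simpa [coe_galTors_apply] using this

/-- **The global block of C3 from the local shape**, at the `ℚ̄`-instance: `l₀` a generator of
`L`, `u0`, `u` normalised Kummer functions of `l₀` and of `x ∈ V`.  Output: the descended Kummer
function `ft ∈ E0` with `σ0 ft = a h ^ p ft`, `a ∈ F0`, `p ∣ v_∞ a`, `p ∣ v_0 a`. -/
theorem global_block (h : GeoShape p (M₀ * p) B V L) {ζ : Qb} (hζ : IsPrimitiveRoot ζ p)
    {l₀ : JTors (M₀ * p) (p ^ 1)} (hl₀L : l₀ ∈ L) (hl₀ : (l₀ : JZero (M₀ * p)) ≠ 0)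
    (hgen : ∀ s ∈ L, ∃ j : ℕ, s = j • l₀)
    {u0 : modularFunctionFieldBar (M₀ * p)} (hu0 : IsKummerRep p (l₀ : JZero (M₀ * p)) u0)
    (hnorm : Normalized (u0 : LaurentSeries Qb))
    {x : JTors (M₀ * p) (p ^ 1)} (hxV : x ∈ V)
    {u : modularFunctionFieldBar (M₀ * p)} (hu : IsKummerRep p (x : JZero (M₀ * p)) u)
    (hun : Normalized (u : LaurentSeries Qb)) :
    ∃ (ft hh : (coverDatumOfKummer hp hζ hl₀ hu0 hnorm).FixedCover (rhoI B)
        (stable_rhoOfSubgroup hp hζ hl₀ hu0 hnorm _ (hI_of_shape h hp hζ hl₀L)))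
      (a : F0 B M₀ p) (g : (coverDatumOfKummer hp hζ hl₀ hu0 hnorm).coverField),
      ft ≠ 0 ∧ hh ≠ 0 ∧ a ≠ 0 ∧ g ≠ 0 ∧
      (coverDatumOfKummer hp hζ hl₀ hu0 hnorm).fixedVal (rhoI B)
          (stable_rhoOfSubgroup hp hζ hl₀ hu0 hnorm _ (hI_of_shape h hp hζ hl₀L)) ft =
        algebraMap (modularFunctionFieldBar (M₀ * p))
          (coverDatumOfKummer hp hζ hl₀ hu0 hnorm).coverField u * g ^ p ∧
      (coverDatumOfKummer hp hζ hl₀ hu0 hnorm).sigma0Alg (rhoI B)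
          (stable_rhoOfSubgroup hp hζ hl₀ hu0 hnorm _ (hI_of_shape h hp hζ hl₀L)) ft =
        algebraMap (F0 B M₀ p) ((coverDatumOfKummer hp hζ hl₀ hu0 hnorm).FixedCover (rhoI B)
          (stable_rhoOfSubgroup hp hζ hl₀ hu0 hnorm _ (hI_of_shape h hp hζ hl₀L))) a *
            hh ^ p * ft ∧
      (p : ℤ) ∣ vinfQb M₀ p hp hpM B hB a ∧ (p : ℤ) ∣ vzeroQb M₀ p hp hpM B hB a := by
  haveI : Fact p.Prime := ⟨hp⟩
  haveI : IsAlgClosed (ResidueField B) := FinalBase.isAlgClosed_residueField B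
  haveI : CharP (ResidueField B) p := FinalBase.charP_residueField B hB
  exact exists_ft_raw B (residue B) M₀ p (hdegQb M₀ p hp hpM) hp hpM (FinalBase.rank_one B hp hB)
    (FinalBase.residue_surjective B) (coverDatumOfKummer hp hζ hl₀ hu0 hnorm)
    (stable_rhoOfSubgroup hp hζ hl₀ hu0 hnorm _ (hI_of_shape h hp hζ hl₀L)) hB hu0 hu hun
    (hx_of_shape h hgen hxV) (hd_of_shape h hxV)

/-- the constant `p` of `F_0` has `v_∞ = 1 = v_0` and is nonzero -/
theorem const_p_facts (hp : p.Prime) (hpM : ¬ p ∣ M₀) (hB : B.LiesOverPrime p) :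
    haveI : Fact p.Prime := ⟨hp⟩
    kappa B M₀ p ((p : ℕ) : Fermat.Agent.S40x.Node.Vocab.K0 B) ≠ 0 ∧
      vinfQb M₀ p hp hpM B hB (kappa B M₀ p ((p : ℕ) : Fermat.Agent.S40x.Node.Vocab.K0 B)) ≠ 0 ∧
      vzeroQb M₀ p hp hpM B hB (kappa B M₀ p ((p : ℕ) : Fermat.Agent.S40x.Node.Vocab.K0 B)) ≠ 0 := by
  haveI : Fact p.Prime := ⟨hp⟩
  haveI : IsAlgClosed (ResidueField B) := FinalBase.isAlgClosed_residueField B
  haveI : CharP (ResidueField B) p := FinalBase.charP_residueField B hB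
  refine ⟨kappa_natCast_ne_zero B M₀ p, ?_, ?_⟩
  · have := vinfB_kappa_natCast B (residue B) M₀ p (hdegQb M₀ p hp hpM) hp hpM
      (FinalBase.rank_one B hp hB) (FinalBase.residue_surjective B)
    show vinfB B (residue B) M₀ p hpM (FinalBase.rank_one B hp hB)
      (FinalBase.residue_surjective B) _ ≠ 0
    rw [this]
    exact one_ne_zero
  · have := vzeroB_kappa_natCast B (residue B) M₀ p (hdegQb M₀ p hp hpM) hp hpM
      (FinalBase.rank_one B hp hB) (FinalBase.residue_surjective B)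
    show vzeroB B (residue B) M₀ p (hdegQb M₀ p hp hpM) hp hpM (FinalBase.rank_one B hp hB)
      (FinalBase.residue_surjective B) _ ≠ 0
    rw [this]
    exact one_ne_zero

/-- **Top composite of block C3 for one class `x ∈ V`**: the global block (from the local shape)
plugged into `Asm/TopB.isDiagonal_of_nodeOut`.  What remains are the per-place hypotheses, stated
for every descended Kummer function `ft = u g ^ p ∈ E0`:
* `hInf`, `hZero` : at the node places, a residue `n` with `NodeSeam.NodeOut … ft n`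
  ([ET] + [CFE] + [SL]) equal to the slope (resp. minus the slope);
* `hInfOff`, `hZeroOff` : the slopes vanish off the nodes (`c3_flat`). -/
theorem isDiagonal_of_perPlace (h : GeoShape p (M₀ * p) B V L) {ζ : Qb}
    (hζ : IsPrimitiveRoot ζ p)
    {l₀ : JTors (M₀ * p) (p ^ 1)} (hl₀L : l₀ ∈ L) (hl₀ : (l₀ : JZero (M₀ * p)) ≠ 0)
    (hgen : ∀ s ∈ L, ∃ j : ℕ, s = j • l₀)
    {u0 : modularFunctionFieldBar (M₀ * p)} (hu0 : IsKummerRep p (l₀ : JZero (M₀ * p)) u0)
    (hnorm : Normalized (u0 : LaurentSeries Qb))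
    {x : JTors (M₀ * p) (p ^ 1)} (hxV : x ∈ V)
    {u : modularFunctionFieldBar (M₀ * p)} (hu : IsKummerRep p (x : JZero (M₀ * p)) u)
    (hun : Normalized (u : LaurentSeries Qb))
    (nodeInf nodeZero : Set (Place (kB B) (FkB B M₀)))
    (hInf : ∀ (ft : (coverDatumOfKummer hp hζ hl₀ hu0 hnorm).FixedCover (rhoI B)
        (stable_rhoOfSubgroup hp hζ hl₀ hu0 hnorm _ (hI_of_shape h hp hζ hl₀L)))
      (g : (coverDatumOfKummer hp hζ hl₀ hu0 hnorm).coverField), ft ≠ 0 → g ≠ 0 →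
      (coverDatumOfKummer hp hζ hl₀ hu0 hnorm).fixedVal (rhoI B)
          (stable_rhoOfSubgroup hp hζ hl₀ hu0 hnorm _ (hI_of_shape h hp hζ hl₀L)) ft =
        algebraMap (modularFunctionFieldBar (M₀ * p))
          (coverDatumOfKummer hp hζ hl₀ hu0 hnorm).coverField u * g ^ p →
      ∀ P ∈ nodeInf, ∃ n : ZMod p,
        NodeOut p (OinfQb M₀ p hp hpM B hB) (OzeroQb M₀ p hp hpM B hB) (vinfQb M₀ p hp hpM B hB)
          (vzeroQb M₀ p hp hpM B hB) ft n ∧
        slopeInfQb M₀ p hp hpM B hB (x : JZero (M₀ * p)) P = n)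
    (hZero : ∀ (ft : (coverDatumOfKummer hp hζ hl₀ hu0 hnorm).FixedCover (rhoI B)
        (stable_rhoOfSubgroup hp hζ hl₀ hu0 hnorm _ (hI_of_shape h hp hζ hl₀L)))
      (g : (coverDatumOfKummer hp hζ hl₀ hu0 hnorm).coverField), ft ≠ 0 → g ≠ 0 →
      (coverDatumOfKummer hp hζ hl₀ hu0 hnorm).fixedVal (rhoI B)
          (stable_rhoOfSubgroup hp hζ hl₀ hu0 hnorm _ (hI_of_shape h hp hζ hl₀L)) ft =
        algebraMap (modularFunctionFieldBar (M₀ * p))
          (coverDatumOfKummer hp hζ hl₀ hu0 hnorm).coverField u * g ^ p →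
      ∀ P ∈ nodeZero, ∃ n : ZMod p,
        NodeOut p (OinfQb M₀ p hp hpM B hB) (OzeroQb M₀ p hp hpM B hB) (vinfQb M₀ p hp hpM B hB)
          (vzeroQb M₀ p hp hpM B hB) ft n ∧
        slopeZeroQb M₀ p hp hpM B hB (x : JZero (M₀ * p)) P = -n)
    (hInfOff : ∀ P ∉ nodeInf, slopeInfQb M₀ p hp hpM B hB (x : JZero (M₀ * p)) P = 0)
    (hZeroOff : ∀ P ∉ nodeZero, slopeZeroQb M₀ p hp hpM B hB (x : JZero (M₀ * p)) P = 0) :
    ∃ c : ZMod p, IsDiagonal (hp := hp) (hpM := hpM) (hB := hB) nodeInf nodeZero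
      (x : JZero (M₀ * p)) c := by
  haveI : Fact p.Prime := ⟨hp⟩
  obtain ⟨ft, hh, a, g, hft0, hh0, ha0, hg0, hftg, hσ, hainf, hazero⟩ :=
    global_block (hpM := hpM) (hB := hB) h hζ hl₀L hl₀ hgen hu0 hnorm hxV hu hun
  obtain ⟨hc0, hcinf, hczero⟩ := const_p_facts (M₀ := M₀) (B := B) hp hpM hB
  exact Fermat.Agent.S40x.R2.Asm.TopB.isDiagonal_of_nodeOut hc0 hcinf hczero
    ((coverDatumOfKummer hp hζ hl₀ hu0 hnorm).mem_zpowers_sigma0Alg (rhoI B)
      (stable_rhoOfSubgroup hp hζ hl₀ hu0 hnorm _ (hI_of_shape h hp hζ hl₀L)))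
    hft0 hh0 ha0 hσ hainf hazero nodeInf nodeZero (x : JZero (M₀ * p))
    (hInf ft g hft0 hg0 hftg) (hZero ft g hft0 hg0 hftg) hInfOff hZeroOff

end Fermat.Agent.S40x.Kum.GlobalGeo
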