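/-
P-S44/S40, block C3, TOP of C3-ASM (helper78): `Geo/FinalLeaves.LeafC3 𝒩` from ONE closed Prop
`PerPlaceC3 𝒩` = the per-place content of the block ([AS] choice of the Kummer function of the
generator of `L`, then [ET] + [CFE] + [SL] at every place), everything else (local shape → global
block [DI] + [FP] + [N] + [KU] → `c3_two_nodes`) being discharged by `Kum/GlobalGeo`.

* `isDiagonal_of_perPlace'` : `GlobalGeo.isDiagonal_of_perPlace` with ALL FOUR per-place hypotheses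
  (node places and off-node places of both components) in the scope of the descended Kummer
  function `ft = u g ^ p`;
* `PerPlaceC3 𝒩`, `leafC3_of_perPlace : PerPlaceC3 𝒩 → LeafC3 𝒩`.
-/
import Fermat.Agent.S40x.Kum.GlobalGeo
import Fermat.Agent.S40x.Geo.FinalLeaves
import Fermat.Agent.S40x.R2.KFB.Modular

set_option autoImplicit false
set_option linter.unusedSectionVars false
set_option linter.unusedVariables false
set_option linter.style.haveILetI false

noncomputable section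

namespace Fermat.Agent.S40x.Kum.LeafC3Of

open AlgebraicCurve IsLocalRing ModularCurve HahnSeries
open Fermat.Agent.Gateway.Hecke Fermat.Agent.Gateway.Kummer Fermat.Agent.Gateway.S31Red
open Fermat.Agent.S34x.Inst
open Fermat.Agent.S33x.KummerPn
open Fermat.Agent.S40x.R2.Cover Fermat.Agent.S40x.R2.Cover.CoverDatum
open Fermat.Agent.S40x.Kum.PairModular Fermat.Agent.S40x.Kum.GlobalGeo
open Fermat.Agent.S40x.Level.G0 Fermat.Agent.S40x.Geo.ShapeFacts Fermat.Agent.S40x.Geo.Vocab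
open Fermat.Agent.S40x.Geo.Nodes Fermat.Agent.S40x.Geo.FinalLeaves
open Fermat.Agent.S40x.R2.Asm.NodeSeam

local notation "Qb" => AlgebraicClosure ℚ
local notation "Γℚ" => (AlgebraicClosure ℚ ≃ₐ[ℚ] AlgebraicClosure ℚ)

section OnePair

variable {M₀ p : ℕ} [NeZero M₀] [NeZero p] {hp : p.Prime} {hpM : ¬ p ∣ M₀}
  {B : ValuationSubring Qb} {hB : B.LiesOverPrime p}
variable {V L : AddSubgroup (JTors (M₀ * p) (p ^ 1))}

/-- **The per-place content of C3 for one class `x`**, for a given choice of `ζ`, of the generator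
`l₀` of `L`, of its normalised Kummer function `u0` and of a normalised Kummer function `u` of `x`:
for every descended Kummer function `ft = u g ^ p ∈ E0` (`E0` the inertia-fixed part of the Kummer
cover `F(u0^{1/p})`),
* at every node place of `κ_∞` a residue `n` with `NodeOut … ft n` equal to the slope;
* at every node place of `κ_0` a residue `n` with `NodeOut … ft n` equal to MINUS the slope;
* the slopes vanish at all other places of `κ_∞`, `κ_0`. -/
def PerPlaceAt (h : GeoShape p (M₀ * p) B V L) {ζ : Qb} (hζ : IsPrimitiveRoot ζ p)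
    {l₀ : JTors (M₀ * p) (p ^ 1)} (hl₀L : l₀ ∈ L) (hl₀ : (l₀ : JZero (M₀ * p)) ≠ 0)
    {u0 : modularFunctionFieldBar (M₀ * p)} (hu0 : IsKummerRep p (l₀ : JZero (M₀ * p)) u0)
    (hnorm : Normalized (u0 : LaurentSeries Qb))
    (nodeInf nodeZero : Set (Place (kB B) (FkB B M₀)))
    (x : JTors (M₀ * p) (p ^ 1)) (u : modularFunctionFieldBar (M₀ * p)) : Prop :=
  ∀ (ft : (coverDatumOfKummer hp hζ hl₀ hu0 hnorm).FixedCover (rhoI B)
        (stable_rhoOfSubgroup hp hζ hl₀ hu0 hnorm _ (hI_of_shape h hp hζ hl₀L)))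
    (g : (coverDatumOfKummer hp hζ hl₀ hu0 hnorm).coverField), ft ≠ 0 → g ≠ 0 →
    (coverDatumOfKummer hp hζ hl₀ hu0 hnorm).fixedVal (rhoI B)
        (stable_rhoOfSubgroup hp hζ hl₀ hu0 hnorm _ (hI_of_shape h hp hζ hl₀L)) ft =
      algebraMap (modularFunctionFieldBar (M₀ * p))
        (coverDatumOfKummer hp hζ hl₀ hu0 hnorm).coverField u * g ^ p →
    (∀ P ∈ nodeInf, ∃ n : ZMod p,
      NodeOut p (OinfQb M₀ p hp hpM B hB) (OzeroQb M₀ p hp hpM B hB) (vinfQb M₀ p hp hpM B hB)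
        (vzeroQb M₀ p hp hpM B hB) ft n ∧
      slopeInfQb M₀ p hp hpM B hB (x : JZero (M₀ * p)) P = n) ∧
    (∀ P ∈ nodeZero, ∃ n : ZMod p,
      NodeOut p (OinfQb M₀ p hp hpM B hB) (OzeroQb M₀ p hp hpM B hB) (vinfQb M₀ p hp hpM B hB)
        (vzeroQb M₀ p hp hpM B hB) ft n ∧
      slopeZeroQb M₀ p hp hpM B hB (x : JZero (M₀ * p)) P = -n) ∧
    (∀ P ∉ nodeInf, slopeInfQb M₀ p hp hpM B hB (x : JZero (M₀ * p)) P = 0) ∧
    (∀ P ∉ nodeZero, slopeZeroQb M₀ p hp hpM B hB (x : JZero (M₀ * p)) P = 0)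

/-- `GlobalGeo.isDiagonal_of_perPlace` with the four per-place hypotheses in the scope of `ft`. -/
theorem isDiagonal_of_perPlace' (h : GeoShape p (M₀ * p) B V L) {ζ : Qb}
    (hζ : IsPrimitiveRoot ζ p)
    {l₀ : JTors (M₀ * p) (p ^ 1)} (hl₀L : l₀ ∈ L) (hl₀ : (l₀ : JZero (M₀ * p)) ≠ 0)
    (hgen : ∀ s ∈ L, ∃ j : ℕ, s = j • l₀)
    {u0 : modularFunctionFieldBar (M₀ * p)} (hu0 : IsKummerRep p (l₀ : JZero (M₀ * p)) u0)
    (hnorm : Normalized (u0 : LaurentSeries Qb))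
    {x : JTors (M₀ * p) (p ^ 1)} (hxV : x ∈ V)
    {u : modularFunctionFieldBar (M₀ * p)} (hu : IsKummerRep p (x : JZero (M₀ * p)) u)
    (hun : Normalized (u : LaurentSeries Qb))
    (nodeInf nodeZero : Set (Place (kB B) (FkB B M₀)))
    (hPl : PerPlaceAt (hp := hp) (hpM := hpM) (hB := hB) h hζ hl₀L hl₀ hu0 hnorm nodeInf nodeZero
      x u) :
    ∃ c : ZMod p, IsDiagonal (hp := hp) (hpM := hpM) (hB := hB) nodeInf nodeZero
      (x : JZero (M₀ * p)) c := by
  obtain ⟨ft, hh, a, g, hft0, hh0, ha0, hg0, hftg, hσ, hainf, hazero⟩ :=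
    global_block (hpM := hpM) (hB := hB) h hζ hl₀L hl₀ hgen hu0 hnorm hxV hu hun
  obtain ⟨-, -, hInfOff, hZeroOff⟩ := hPl ft g hft0 hg0 hftg
  exact isDiagonal_of_perPlace h hζ hl₀L hl₀ hgen hu0 hnorm hxV hu hun nodeInf nodeZero
    (fun ft g h1 h2 h3 => (hPl ft g h1 h2 h3).1) (fun ft g h1 h2 h3 => (hPl ft g h1 h2 h3).2.1)
    hInfOff hZeroOff

end OnePair

/-- **The per-place content of block C3**: at a good level, for a pair `L < V` with the local shape
of `s44_geo'`, `L ≤ K_p`, and a generator `l₀` of `L`: SOME primitive `p`-th root of unity `ζ` and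
SOME normalised Kummer function `u0` of `l₀` (the [AS] choice) such that every `x ∈ V` has SOME
normalised Kummer function `u` with `PerPlaceAt` ([ET] + [CFE] + [SL] at every place). -/
def PerPlaceC3 (𝒩 : NodeSets) : Prop :=
  ∀ (M₀ p : ℕ) [NeZero M₀] [NeZero p] (hp : p.Prime) (hpM : ¬ p ∣ M₀)
    (B : ValuationSubring Qb) (hB : B.LiesOverPrime p), 5 ≤ p → 4 ∣ M₀ →
    ∀ (V L : AddSubgroup (JTors (M₀ * p) (p ^ 1))) (h : GeoShape p (M₀ * p) B V L),
      L ≤ KmTors M₀ p hp hpM B hB (p ^ 1) →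
      ∀ (l₀ : JTors (M₀ * p) (p ^ 1)) (hl₀L : l₀ ∈ L) (hl₀ : (l₀ : JZero (M₀ * p)) ≠ 0),
        (∀ s ∈ L, ∃ j : ℕ, s = j • l₀) →
        ∃ (ζ : Qb) (hζ : IsPrimitiveRoot ζ p) (u0 : modularFunctionFieldBar (M₀ * p))
          (hu0 : IsKummerRep p (l₀ : JZero (M₀ * p)) u0)
          (hnorm : Normalized (u0 : LaurentSeries Qb)),
          ∀ x ∈ V, ∃ u : modularFunctionFieldBar (M₀ * p),
            IsKummerRep p (x : JZero (M₀ * p)) u ∧ Normalized (u : LaurentSeries Qb) ∧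
            PerPlaceAt (hp := hp) (hpM := hpM) (hB := hB) h hζ hl₀L hl₀ hu0 hnorm
              (𝒩 M₀ p hp hpM B hB).1 (𝒩 M₀ p hp hpM B hB).2 x u

/-- **Block C3 from its per-place content.** -/
theorem leafC3_of_perPlace (𝒩 : NodeSets) (H : PerPlaceC3 𝒩) : LeafC3 𝒩 := by
  intro M₀ p _ _ hp hpM B hB hp5 h4 V L h hLK x hxV
  obtain ⟨l₀, hl₀L, hl₀ne, hgen⟩ := exists_generator h hp
  have hl₀ : (l₀ : JZero (M₀ * p)) ≠ 0 := fun h0 => hl₀ne (Subtype.ext h0)
  obtain ⟨ζ, hζ, u0, hu0, hnorm, hx⟩ := H M₀ p hp hpM B hB hp5 h4 V L h hLK l₀ hl₀L hl₀ hgen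
  obtain ⟨u, hu, hun, hPl⟩ := hx x hxV
  exact isDiagonal_of_perPlace' h hζ hl₀L hl₀ hgen hu0 hnorm hxV hu hun _ _ hPl

end Fermat.Agent.S40x.Kum.LeafC3Of
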