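/-
P-S44/S40, block C3, SUB-ASSEMBLY of C3-ASM, second layer (helper78): from `PairModular.FtSpec`
(the descended Kummer function `ft` with `Tinf`, `Tzero`) and a PER-NODE hypothesis
(`[ET] + [CFE] + [SL]` = `Asm/Core.node_slope_eq` at each node `s`: valuation data
`Winf_s, Wzero_s, winf_s, wzero_s` of `E0` over `O_∞ ∩ F0`, `O_0 ∩ F0`, and
`n s = wzero_s ft - winf_s ft` in `ZMod q`) to the DIAGONAL conclusion: all node slopes are equal.
-/
import Fermat.Agent.S40x.Kum.PairModular

set_option autoImplicit false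
set_option linter.unusedSectionVars false
set_option linter.unusedVariables false
set_option linter.style.haveILetI false

noncomputable section

namespace Fermat.Agent.S40x.Kum.PairNodes

open AlgebraicCurve IsLocalRing ModularCurve HahnSeries
open Fermat.Agent.Gateway.Hecke Fermat.Agent.Gateway.Kummer
open Fermat.Agent.S40x.R2.Transitive (IsOrd)
open Fermat.Agent.S40x.R2.Cover Fermat.Agent.S40x.R2.Cover.CoverDatum
open Fermat.Agent.S40x.Kum.PairModular

local notation "Qbar" => AlgebraicClosure ℚ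

variable (P : ValuationSubring Qbar) {k : Type} [Field k] (π : P →+* k) [IsAlgClosed k]
variable (M q : ℕ) [NeZero M] [Fact q.Prime] [CharP k q]
variable (hdeg : finrankAlong Qbar (heckeAlphaBar Qbar M q) = q + 1) (hq : q.Prime)
  (hqM : ¬ q ∣ M)
variable (hrk : ∀ x ∈ maximalIdeal P, ∀ c : P, c ≠ 0 → ∃ j : ℕ, c ∣ x ^ j)
  (hπ : Function.Surjective π)
variable (D : CoverDatum (modularFunctionFieldBar (M * q)) q)
  (hρ : ∀ g : P.inertiaSubgroupIn ℚ, D.Stable (rhoI P g))

/-- The valuation data at one node `s` for a given `ft ∈ E0`: valuation subrings `Winf, Wzero` of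
`E0` over `O_∞ ∩ F0`, `O_0 ∩ F0` with order functions restricting to `v_∞`, `v_0`, and the node
slope `n = wzero ft - winf ft` in `ZMod q` (conclusion of `Asm/Core.node_slope_eq`). -/
def NodeData (ft : D.FixedCover (rhoI P) hρ) (n : ZMod q) : Prop :=
  ∃ (Winf Wzero : ValuationSubring (D.FixedCover (rhoI P) hρ))
    (winf wzero : D.FixedCover (rhoI P) hρ → ℤ),
    (∀ e : F0 P M q, algebraMap (F0 P M q) (D.FixedCover (rhoI P) hρ) e ∈ Winf ↔
      e ∈ OinfB P π M q hqM hrk hπ) ∧
    (∀ e : F0 P M q, algebraMap (F0 P M q) (D.FixedCover (rhoI P) hρ) e ∈ Wzero ↔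
      e ∈ OzeroB P π M q hdeg hq hqM hrk hπ) ∧
    IsOrd Winf winf ∧ IsOrd Wzero wzero ∧
    (∀ e : F0 P M q, e ≠ 0 →
      winf (algebraMap (F0 P M q) (D.FixedCover (rhoI P) hρ) e) = vinfB P π M q hqM hrk hπ e) ∧
    (∀ e : F0 P M q, e ≠ 0 →
      wzero (algebraMap (F0 P M q) (D.FixedCover (rhoI P) hρ) e) =
        vzeroB P π M q hdeg hq hqM hrk hπ e) ∧
    n = ((wzero ft - winf ft : ℤ) : ZMod q)

/-- **All node slopes are equal.**  `n : ι → ZMod q` the node slopes of the class with Kummer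
function `u`; `hnode`: for every descended `ft = u g ^ q ∈ E0` the node data exist at every node
(`[ET] + [CFE] + [SL]`). -/
theorem exists_const_of_ftSpec {u : modularFunctionFieldBar (M * q)}
    (hspec : FtSpec P π M q hdeg hq hqM hrk hπ D hρ u) {ι : Type*} (n : ι → ZMod q)
    (hnode : ∀ (ft : D.FixedCover (rhoI P) hρ) (g : D.coverField), ft ≠ 0 → g ≠ 0 →
      D.fixedVal (rhoI P) hρ ft =
        algebraMap (modularFunctionFieldBar (M * q)) D.coverField u * g ^ q →
      ∀ s : ι, NodeData P π M q hdeg hq hqM hrk hπ D hρ ft (n s)) :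
    ∀ s s' : ι, n s = n s' := by
  obtain ⟨ft, g, hft0, hg0, hftg, hTinf, hTzero⟩ := hspec
  intro s s'
  obtain ⟨Winf, Wzero, winf, wzero, hWinf, hWzero, hwinf, hwzero, hvinf, hvzero, hn⟩ :=
    hnode ft g hft0 hg0 hftg s
  obtain ⟨Winf', Wzero', winf', wzero', hWinf', hWzero', hwinf', hwzero', hvinf', hvzero', hn'⟩ :=
    hnode ft g hft0 hg0 hftg s'
  rw [hn, hn']
  exact zmod_sub_eq_of_dvd q (hTinf hWinf hWinf' hwinf hwinf' hvinf hvinf')
    (hTzero hWzero hWzero' hwzero hwzero' hvzero hvzero')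

/-- the same with a common value `c` (nonempty set of nodes) -/
theorem exists_const_slope {u : modularFunctionFieldBar (M * q)}
    (hspec : FtSpec P π M q hdeg hq hqM hrk hπ D hρ u) {ι : Type*} (n : ι → ZMod q)
    (hnode : ∀ (ft : D.FixedCover (rhoI P) hρ) (g : D.coverField), ft ≠ 0 → g ≠ 0 →
      D.fixedVal (rhoI P) hρ ft =
        algebraMap (modularFunctionFieldBar (M * q)) D.coverField u * g ^ q →
      ∀ s : ι, NodeData P π M q hdeg hq hqM hrk hπ D hρ ft (n s)) :
    ∃ c : ZMod q, ∀ s : ι, n s = c := by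
  classical
  by_cases hι : Nonempty ι
  · obtain ⟨s0⟩ := hι
    exact ⟨n s0, fun s =>
      exists_const_of_ftSpec P π M q hdeg hq hqM hrk hπ D hρ hspec n hnode s s0⟩
  · exact ⟨0, fun s => absurd ⟨s⟩ hι⟩

end Fermat.Agent.S40x.Kum.PairNodes
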